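/-
S25 / block R (formal representability).  SKELETON (contains sorry): final file = Fermat/Agent/S25/Rep.lean
Definitions are in Fermat/Agent/S25/RepDefs.lean.
-/
import Fermat.Agent.S25.RepDefs

set_option autoImplicit false

universe w u

open CategoryTheory CategoryTheory.Limits AlgebraicGeometry Opposite

namespace Fermat.Agent.S25.Rep

variable {S : Scheme.{u}} (F : (Over S)ᵒᵖ ⥤ Type w)

/-- MAIN THEOREM of block R. -/
theorem representable (hsep : IsSep F) (hglue : HasGlue2 F) (𝒜 : Atlas F) :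
    ∃ (J : Over S) (ξJ : F.obj (op J)),
      (∀ (T : Over S) (η : F.obj (op T)), ∃! g : T ⟶ J, F.map g.op ξJ = η) ∧
      ∃ j : ∀ i, 𝒜.X i ⟶ J, (∀ i, IsOpenImmersion (j i).left) ∧
        (∀ z : J.left, ∃ i, z ∈ Set.range (j i).left.base) ∧
        ∀ i, F.map (j i).op ξJ = 𝒜.ξ i := by
  sorry

end Fermat.Agent.S25.Rep
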