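/-
S25 / block R (reduction of the atlas conditions to affine test schemes).
SKELETON (contains sorry): final file = Fermat/Agent/S25/RepAff.lean
Definitions are in Fermat/Agent/S25/RepDefs.lean.
-/
import Fermat.Agent.S25.RepDefs

set_option autoImplicit false

universe w u

open CategoryTheory CategoryTheory.Limits AlgebraicGeometry Opposite

namespace Fermat.Agent.S25.Rep

variable {k : Type u} [Field k] (F : (Over (Spec (CommRingCat.of k)))ᵒᵖ ⥤ Type w)

/-- MAIN RESULT: an affine atlas is an atlas (three proofs to fill). -/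
noncomputable def AffAtlas.toAtlas (hsep : IsSep F) (𝒜 : AffAtlas F) : Atlas F where
  ι := 𝒜.ι
  fin := 𝒜.fin
  X i := aff k (𝒜.R i)
  ξ := 𝒜.ξ
  mono := sorry
  isOpen := sorry
  cover := sorry

end Fermat.Agent.S25.Rep
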