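/-
S25 / block Z SKELETON (contains sorry).  Each theorem below = one task; final files
Fermat/Agent/S25/Z/<Name>.lean.   Owner of this skeleton: helper25.
-/
import Fermat.Agent.S25.PicFunctor
import Fermat.Agent.S25.WIP.Rep
import Fermat.Agent.S25.WIP.RepAff
import Fermat.Agent.S25.Z.PointsSpec

set_option autoImplicit false

universe u

open CategoryTheory CategoryTheory.Limits AlgebraicGeometry AlgebraicGeometry.RelPicard
  NeronModelInfra GoodReductionJacobian Opposite
open scoped TensorProduct

namespace Fermat.Agent.S25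

open _root_.Fermat.Agent.S25.Rep Triple

variable {k : Type u} [Field k] {C : Scheme.{u}} {c : C ⟶ Spec (CommRingCat.of k)}
  {ε : SchemeHomOver (𝟙 (Spec (CommRingCat.of k))) c}

/-! ### Z1: descent properties of the functor -/

theorem isSep_picFunctor (P : SubPicCondition c ε) (hsep : SepSpec c ε) :
    IsSep (picFunctor P) := sorry

theorem hasGlue2_picFunctor (hglue : Glue2Spec c ε) :
    HasGlue2 (picFunctor (algEquivZeroCut c ε)) := sorry

/-! ### Z2: algebraic equivalence to zero = degree zero -/

theorem fibrewiseAlgEquivZero_iff_deg0 [IsAlgClosed k] (G : GeomCharts c ε) (D : Dictionary G)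
    (S : AlgSpec G.𝔠) (A : Type u) [CommRing A] [Algebra k A]
    (M : RigidifiedLineBundle c ε (sp k A)) :
    FibrewiseAlgEquivZero M ↔ (D.sec A M.L).Deg0 := sorry

/-! ### Z3: the functor of points on affine schemes -/

/-- The affine atlas of the Picard functor obtained from the algebraic charts. -/
theorem exists_affAtlas [IsAlgClosed k] (G : GeomCharts c ε) (D : Dictionary G) (S : AlgSpec G.𝔠) :
    ∃ 𝒜 : AffAtlas (picFunctor (algEquivZeroCut c ε)), ∃ e : 𝒜.ι ≃ S.charts.ι,
      ∀ i : 𝒜.ι, Nonempty (𝒜.R i ≃ₐ[k] S.charts.R (e i)) := sorry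

/-- Existence of the representing object with its atlas and its functor of points. -/
theorem exists_jacobian [IsAlgClosed k] (G : GeomCharts c ε) (D : Dictionary G) (S : AlgSpec G.𝔠)
    (hsep : SepSpec c ε) (hglue : Glue2Spec c ε) :
    ∃ (J : Over (Spec (CommRingCat.of k)))
      (ξJ : (picFunctor (algEquivZeroCut c ε)).obj (op J)),
      (∀ (T : Over (Spec (CommRingCat.of k))) (η : (picFunctor (algEquivZeroCut c ε)).obj (op T)),
        ∃! g : T ⟶ J, (picFunctor (algEquivZeroCut c ε)).map g.op ξJ = η) ∧
      Nonempty (PointsSpec G.𝔠 J) ∧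
      ∃ j : ∀ i : S.charts.ι, aff k (S.charts.R i) ⟶ J, (∀ i, IsOpenImmersion (j i).left) ∧
        (∀ z : J.left, ∃ i, z ∈ Set.range (j i).left.base) := sorry

/-! ### Z4: packaging into the frozen structures -/

theorem exists_represents_of_universal (P : SubPicCondition c ε)
    (J : Over (Spec (CommRingCat.of k))) (ξJ : (picFunctor P).obj (op J))
    (huniv : ∀ (T : Over (Spec (CommRingCat.of k))) (η : (picFunctor P).obj (op T)),
        ∃! g : T ⟶ J, (picFunctor P).map g.op ξJ = η) :
    ∃ z : Spec (CommRingCat.of k) ⟶ J.left, ∃ hz : z ≫ J.hom = 𝟙 _,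
      Nonempty (RepresentsRelSubPic c ε P
        { P := J.left, toBase := J.hom, zeroSection := z, zeroSection_toBase := hz }) := sorry

/-! ### Z5-Z8: geometric properties of `J` (no sheaves any more) -/

section Properties

variable {𝔠 : CurveCharts k} (S : AlgSpec 𝔠) {J : Over (Spec (CommRingCat.of k))}
  (pts : PointsSpec 𝔠 J)
  (j : ∀ i : S.charts.ι, aff k (S.charts.R i) ⟶ J) (hj : ∀ i, IsOpenImmersion (j i).left)
  (hcov : ∀ z : J.left, ∃ i, z ∈ Set.range (j i).left.base)

include pts hj hcov in
theorem smooth_of_spec : Smooth J.hom := sorry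

include pts hj hcov in
theorem isSeparated_of_spec : IsSeparated J.hom := sorry

include pts hj hcov in
theorem isProper_of_spec : IsProper J.hom := sorry

include pts hj hcov in
theorem geometricallyConnected_of_spec : GeometricallyConnected J.hom := sorry

end Properties

/-! ### final assembly -/

theorem result_of_specs [IsAlgClosed k] (G : GeomCharts c ε) (D : Dictionary G) (S : AlgSpec G.𝔠)
    (hsep : SepSpec c ε) (hglue : Glue2Spec c ε) :
    ∃ D : RelativePic0Designation k c,
      Nonempty (RepresentsRelSubPic c ε (algEquivZeroCut c ε) D) ∧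
        Smooth D.toBase ∧ IsProper D.toBase ∧ GeometricallyConnected D.toBase := by
  obtain ⟨J, ξJ, huniv, ⟨pts⟩, j, hj, hcov⟩ := exists_jacobian G D S hsep hglue
  obtain ⟨z, hz, hrep⟩ := exists_represents_of_universal _ J ξJ huniv
  exact ⟨_, hrep, smooth_of_spec S pts j hj hcov, isProper_of_spec S pts j hj hcov,
    geometricallyConnected_of_spec S pts j hj hcov⟩

end Fermat.Agent.S25
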