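/-
S25 / blocks Q, X, H, P SKELETON (contains sorry).  Each theorem (or small group) = one task.
Final files: Fermat/Agent/S25/Charts/<Name>.lean.   Owner of this skeleton: helper25.
-/
import Fermat.Agent.S25.Charts.Defs
import Fermat.Agent.S25.Hilb.Ring

set_option autoImplicit false

universe u

open scoped TensorProduct

namespace Fermat.Agent.S25

open Triple

variable {k : Type u} [Field k] [IsAlgClosed k] {𝔠 : CurveCharts k}

/-! ## Block Q: divisor bundles over an arbitrary base `A` -/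
section Q

variable {A : Type u} [CommRing A] [Algebra k A] {A' : Type u} [CommRing A'] [Algebra k A']

theorem Idiv_isInvertible {I : Ideal (𝔠.R₁ A)} {r : ℕ} (hI : IsDiv A I r) :
    (Idiv I).IsInvertible := sorry
theorem Idiv_isRigid {I : Ideal (𝔠.R₁ A)} {r : ℕ} (hI : IsDiv A I r) : (Idiv I).IsRigid := sorry
theorem IsDiv.map {I : Ideal (𝔠.R₁ A)} {r : ℕ} (hI : IsDiv A I r) (φ : A →ₐ[k] A') :
    IsDiv A' (I.map (𝔠.bc₁ φ).toRingHom) r := sorry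
theorem Idiv_bc {I : Ideal (𝔠.R₁ A)} {r : ℕ} (hI : IsDiv A I r) (φ : A →ₐ[k] A') :
    IsBC φ (Idiv I) (Idiv (I.map (𝔠.bc₁ φ).toRingHom)) := sorry
theorem IsDiv.mul {I I' : Ideal (𝔠.R₁ A)} {r r' : ℕ} (hI : IsDiv A I r) (hI' : IsDiv A I' r') :
    IsDiv A (I * I') (r + r') := sorry
theorem Idiv_mul {I I' : Ideal (𝔠.R₁ A)} {r r' : ℕ} (hI : IsDiv A I r) (hI' : IsDiv A I' r') :
    Nonempty (Iso (Idiv (I * I')) ((Idiv I).tensor (Idiv I'))) := sorry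
theorem isDiv_graphIdeal₁ (σ : 𝔠.B₁ →ₐ[k] A) : IsDiv A (graphIdeal₁ σ) 1 := sorry
theorem graphIdeal₁_map (σ : 𝔠.B₁ →ₐ[k] A) (φ : A →ₐ[k] A') :
    (graphIdeal₁ σ).map (𝔠.bc₁ φ).toRingHom = graphIdeal₁ (φ.comp σ) := sorry

theorem Idiv₂_isInvertible {I : Ideal (𝔠.R₂ A)} {r : ℕ} (hI : IsDiv₂ A I r) :
    (Idiv₂ I).IsInvertible := sorry
theorem IsDiv₂.map {I : Ideal (𝔠.R₂ A)} {r : ℕ} (hI : IsDiv₂ A I r) (φ : A →ₐ[k] A') :
    IsDiv₂ A' (I.map (𝔠.bc₂ φ).toRingHom) r := sorry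
theorem Idiv₂_bc {I : Ideal (𝔠.R₂ A)} {r : ℕ} (hI : IsDiv₂ A I r) (φ : A →ₐ[k] A') :
    IsBC φ (Idiv₂ I) (Idiv₂ (I.map (𝔠.bc₂ φ).toRingHom)) := sorry
theorem isDiv₂_graphIdeal₂ (τ : 𝔠.B₂ →ₐ[k] A) : IsDiv₂ A (graphIdeal₂ τ) 1 := sorry
theorem graphIdeal₂_map (τ : 𝔠.B₂ →ₐ[k] A) (φ : A →ₐ[k] A') :
    (graphIdeal₂ τ).map (𝔠.bc₂ φ).toRingHom = graphIdeal₂ (φ.comp τ) := sorry
/-- a point of `W₁ ∩ W₂` gives the same bundle in both descriptions -/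
theorem Ipt_iso_Ipt₂ (σ : 𝔠.B₁₂ →ₐ[k] A) :
    Nonempty (Iso (Ipt (σ.comp (IsScalarTower.toAlgHom k 𝔠.B₁ 𝔠.B₁₂)))
      (Ipt₂ (σ.comp (IsScalarTower.toAlgHom k 𝔠.B₂ 𝔠.B₁₂)))) := sorry

theorem IP0_isInvertible : (IP0 𝔠 A).IsInvertible := sorry
theorem IP0_isRigid : (IP0 𝔠 A).IsRigid := sorry
theorem IP0_bc (φ : A →ₐ[k] A') : IsBC φ (IP0 𝔠 A) (IP0 𝔠 A') := sorry
theorem Otw_isInvertible (j : ℕ) : (Otw 𝔠 A j).IsInvertible := sorry
theorem Otw_isRigid (j : ℕ) : (Otw 𝔠 A j).IsRigid := sorry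
theorem Otw_bc (j : ℕ) (φ : A →ₐ[k] A') : IsBC φ (Otw 𝔠 A j) (Otw 𝔠 A' j) := sorry
theorem Otw_add (i j : ℕ) :
    Nonempty (Iso (Otw 𝔠 A (i + j)) ((Otw 𝔠 A i).tensor (Otw 𝔠 A j))) := sorry
/-- relative Serre vanishing -/
theorem exists_Otw_surjective (T : Triple 𝔠 A) (hT : T.IsInvertible) :
    ∃ j₀ : ℕ, ∀ j, j₀ ≤ j → Function.Surjective (T.tensor (Otw 𝔠 A j)).δ := sorry

end Q

/-! ## Block X: Riemann-Roch-lite over a field `K/k` -/
section X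

variable {K : Type u} [Field K] [Algebra k K]

theorem finite_cohomology (T : Triple 𝔠 K) (hT : T.IsInvertible) :
    Module.Finite K (LinearMap.ker T.δ) ∧ Module.Finite K (T.N₁₂ ⧸ LinearMap.range T.δ) := sorry
theorem chi_iso {T T' : Triple 𝔠 K} (e : Iso T T') : T.chi = T'.chi := sorry
theorem h0_unit : (unit 𝔠 K).h0 = 1 := sorry
theorem h1_unit : (unit 𝔠 K).h1 = 𝔠.genus := sorry
theorem chi_tensor_Idiv (T : Triple 𝔠 K) (hT : T.IsInvertible) {I : Ideal (𝔠.R₁ K)} {r : ℕ}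
    (hI : IsDiv K I r) : (T.tensor (Idiv I)).chi = T.chi - r := sorry
theorem chi_tensor_Idiv₂ (T : Triple 𝔠 K) (hT : T.IsInvertible) {I : Ideal (𝔠.R₂ K)} {r : ℕ}
    (hI : IsDiv₂ K I r) : (T.tensor (Idiv₂ I)).chi = T.chi - r := sorry
theorem chi_tensor_Otw (T : Triple 𝔠 K) (hT : T.IsInvertible) (j : ℕ) :
    (T.tensor (Otw 𝔠 K j)).chi = T.chi + j * 𝔠.degInf := sorry
/-- sections of `T(-D)` = sections of `T` vanishing on `D` -/
theorem h0_tensor_Idiv_pos_iff (T : Triple 𝔠 K) (hT : T.IsInvertible) {I : Ideal (𝔠.R₁ K)} {r : ℕ}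
    (hI : IsDiv K I r) : 0 < (T.tensor (Idiv I)).h0 ↔
      ∃ z ∈ LinearMap.ker T.δ, z ≠ 0 ∧ z.1 ∈ I • (⊤ : Submodule (𝔠.R₁ K) T.N₁) := sorry
theorem chi_ge_of_h0_pos (T : Triple 𝔠 K) (hT : T.IsInvertible) (h : 0 < T.h0) :
    (unit 𝔠 K).chi ≤ T.chi := sorry
/-- structure of line bundles over a field -/
theorem exists_iso_Idiv_tensor_Otw (T : Triple 𝔠 K) (hT : T.IsInvertible) :
    ∃ (j r : ℕ) (I : Ideal (𝔠.R₁ K)), IsDiv K I r ∧
      Nonempty (Iso T ((Idiv I).tensor (Otw 𝔠 K j))) := sorry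
theorem deg_tensor (T T' : Triple 𝔠 K) (hT : T.IsInvertible) (hT' : T'.IsInvertible) :
    (T.tensor T').deg = T.deg + T'.deg := sorry
theorem deg_ihom (T T' : Triple 𝔠 K) (hT : T.IsInvertible) (hT' : T'.IsInvertible) :
    (ihom T T').deg = T'.deg - T.deg := sorry
theorem deg_const (E : Triple 𝔠 k) (hE : E.IsInvertible) : (E.const K).deg = E.deg := sorry

end X

/-- uniform vanishing (no duality) -/
theorem exists_h1_vanishing (𝔠 : CurveCharts k) : ∃ m₀ : ℤ, ∀ (K : Type u) [Field K] [Algebra k K]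
    (T : Triple 𝔠 K), T.IsInvertible → m₀ ≤ T.chi → T.h1 = 0 := sorry

/-- COVERING LEMMA -/
theorem exists_twists (𝔠 : CurveCharts k) : ∃ (n : ℕ) (E : Fin n → Triple 𝔠 k),
    (∀ j, (E j).IsInvertible ∧ (E j).IsRigid ∧ (E j).deg = 𝔠.genus) ∧
    ∀ (K : Type u) [Field K] [Algebra k K] (T : Triple 𝔠 K), T.IsPic0 → ∃ j, NS (E j) T := sorry

/-- every degree-zero bundle over an algebraically closed field is `𝒪(-ΣPᵢ) ⊗ E`, `Pᵢ ∈ W₁(K)` -/
theorem exists_points (𝔠 : CurveCharts k) : ∃ (m : ℕ) (E : Triple 𝔠 k),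
    E.IsInvertible ∧ E.IsRigid ∧ E.deg = m ∧
    ∀ (K : Type u) [Field K] [IsAlgClosed K] [Algebra k K] (T : Triple 𝔠 K), T.IsPic0 →
      ∃ σ : Fin m → (𝔠.B₁ →ₐ[k] K),
        Nonempty (Iso T ((tensorList (List.ofFn fun i => Ipt (σ i))).tensor (E.const K))) := sorry

/-! ## Block H: the charts -/
section H

variable {A : Type u} [CommRing A] [Algebra k A]

/-- the NS-locus is open and compatible with base change -/
theorem exists_NS_locus (E : Triple 𝔠 k) (hE : E.IsInvertible) (T : Triple 𝔠 A)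
    (hT : T.IsInvertible) : ∃ V : Set (PrimeSpectrum A), IsOpen V ∧
      ∀ (A' : Type u) [CommRing A'] [Algebra k A'] (ψ : A →ₐ[k] A') (T' : Triple 𝔠 A'),
        IsBC ψ T T' → ((∀ p : PrimeSpectrum A', PrimeSpectrum.comap ψ.toRingHom p ∈ V) ↔ NS E T') :=
  sorry

/-- CHART THEOREM, existence -/
theorem exists_div_of_NS (E : Triple 𝔠 k) (hE : E.IsInvertible) (hEr : E.IsRigid)
    (hEd : E.deg = 𝔠.genus) (T : Triple 𝔠 A) (hT : T.IsPic0) (h : NS E T) :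
    ∃ I : Ideal (𝔠.R₁ A), IsDiv A I 𝔠.genus ∧
      Nonempty (Iso T ((Idiv I).tensor (E.const A))) := sorry

/-- CHART THEOREM, uniqueness -/
theorem div_unique_of_NS (E : Triple 𝔠 k) (hE : E.IsInvertible) (hEr : E.IsRigid)
    (hEd : E.deg = 𝔠.genus) {I I' : Ideal (𝔠.R₁ A)} (hI : IsDiv A I 𝔠.genus)
    (hI' : IsDiv A I' 𝔠.genus) (h : NS E ((Idiv I).tensor (E.const A)))
    (e : Iso ((Idiv I).tensor (E.const A)) ((Idiv I').tensor (E.const A))) : I = I' := sorry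

/-- `𝒪(-D) ⊗ E` is an object of `Pic⁰` -/
theorem isPic0_Idiv_tensor_const (E : Triple 𝔠 k) (hE : E.IsInvertible) (hEr : E.IsRigid)
    {r : ℕ} (hEd : E.deg = r) {I : Ideal (𝔠.R₁ A)} (hI : IsDiv A I r) :
    ((Idiv I).tensor (E.const A)).IsPic0 := sorry

/-- finitely many `g`-tuples `β` of elements of `B₁` suffice as bases of `𝒪_D` -/
theorem exists_finite_bases (𝔠 : CurveCharts k) (g : ℕ) : ∃ (n : ℕ) (β : Fin n → (Fin g → 𝔠.B₁)),
    ∀ (K : Type u) [Field K] [Algebra k K] (I : Ideal (𝔠.R₁ K)), IsDiv K I g →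
      ∃ j, Function.Bijective (Hilb.basisMap (β j) I) := sorry

end H

/-- the atlas -/
theorem exists_algCharts (𝔠 : CurveCharts k) : Nonempty (AlgCharts 𝔠) := sorry

/-! ## Block P: remaining fields of `AlgSpec` -/

theorem val_unique (𝔠 : CurveCharts k) (V K : Type u) [CommRing V] [IsDomain V] [ValuationRing V]
    [Field K] [Algebra k V] [Algebra k K] [Algebra V K] [IsScalarTower k V K] [IsFractionRing V K]
    (T T' : Triple 𝔠 V) (TK : Triple 𝔠 K) (hT : T.IsPic0) (hT' : T'.IsPic0)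
    (h : IsBC (IsScalarTower.toAlgHom k V K) T TK) (h' : IsBC (IsScalarTower.toAlgHom k V K) T' TK) :
    Nonempty (Iso T T') := sorry

theorem val_exists (𝔠 : CurveCharts k) (ch : AlgCharts 𝔠) (V K : Type u) [CommRing V] [IsDomain V]
    [ValuationRing V] [Field K] [Algebra k V] [Algebra k K] [Algebra V K] [IsScalarTower k V K]
    [IsFractionRing V K] (TK : Triple 𝔠 K) (hTK : TK.IsPic0) :
    ∃ T : Triple 𝔠 V, T.IsPic0 ∧ IsBC (IsScalarTower.toAlgHom k V K) T TK := sorry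

theorem exists_fam (𝔠 : CurveCharts k) : ∃ (F : Type u) (_ : CommRing F) (_ : Algebra k F),
    Algebra.FiniteType k F ∧ (∀ (K : Type u) [Field K] [Algebra k K], IsDomain (K ⊗[k] F)) ∧
    ∃ fam : Triple 𝔠 F, fam.IsPic0 ∧
      ∀ (K : Type u) [Field K] [IsAlgClosed K] [Algebra k K] (T : Triple 𝔠 K), T.IsPic0 →
        ∃ φ : F →ₐ[k] K, IsBC φ fam T := sorry

end Fermat.Agent.S25
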