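/-
S25 / block D (Dictionary): SKELETON of the general sheaf layer (statements only).
Owner: helper249.  Each statement is a task; the proved version lives in Fermat/Agent/S25/Dict/*.lean,
namespace Fermat.Agent.S25.Dict (definitions: Fermat/Agent/S25/Mod/DictDefs.lean, namespace Fermat.Agent.S25.Mod).
-/
import Fermat.Agent.S25.Mod.DictDefs
import Fermat.Agent.S25.GeomSpec

set_option autoImplicit false

universe u

open CategoryTheory CategoryTheory.Limits AlgebraicGeometry TopologicalSpace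

namespace Fermat.Agent.S25.Dict.Skeleton

open Fermat.Agent.S25.Mod

variable {X : Scheme.{u}}

/-! ### QC : quasi-coherence on opens  (file Dict/QC.lean) -/

theorem QCOn.of_isQuasicoherent (M : X.Modules) [M.IsQuasicoherent] (U : X.Opens) : QCOn M U :=
  sorry

theorem QCOn.mono {M : X.Modules} {U V : X.Opens} (h : QCOn M U) (hVU : V ≤ U) : QCOn M V :=
  sorry

/-- quasi-coherence is local -/
theorem isQuasicoherent_of_cover (M : X.Modules) {ι : Type u} (U : ι → X.Opens)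
    (hU : ⨆ i, U i = ⊤) (h : ∀ i, QCOn M (U i)) : M.IsQuasicoherent :=
  sorry

theorem QCOn.of_bijective {M M' : X.Modules} (φ : M ⟶ M') {U : X.Opens}
    (h : ∀ V ≤ U, Function.Bijective (φ.app V)) (hM' : QCOn M' U) : QCOn M U :=
  sorry

theorem isQuasicoherent_of_isInvertible (L : X.Modules) (h : Scheme.Modules.IsInvertible L) :
    L.IsQuasicoherent :=
  sorry

/-! ### LOC : sections over basic opens  (file Dict/Loc.lean) -/

theorem QCOn.isLocAt {M : X.Modules} {U : X.Opens} (hM : QCOn M U) (hU : IsAffineOpen U)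
    (f : Γ(X, U)) (V : X.Opens) (hV : V = X.basicOpen f) (hVU : V ≤ U) :
    IsLocAt (rres X hVU) f (mres M hVU) :=
  sorry

/-! ### ISO : isomorphism criteria  (file Dict/IsoCrit.lean) -/

theorem bijective_app_of_le {M M' : X.Modules} (φ : M ⟶ M') {U : X.Opens} (hU : IsAffineOpen U)
    (hM : QCOn M U) (hM' : QCOn M' U) (h : Function.Bijective (φ.app U)) {W : X.Opens}
    (hW : W ≤ U) : Function.Bijective (φ.app W) :=
  sorry

theorem isIso_of_cover {M M' : X.Modules} (φ : M ⟶ M') (U₁ U₂ : X.Opens) (h : U₁ ⊔ U₂ = ⊤)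
    (h₁ : ∀ V ≤ U₁, Function.Bijective (φ.app V)) (h₂ : ∀ V ≤ U₂, Function.Bijective (φ.app V)) :
    IsIso φ :=
  sorry

/-! ### HOM : morphisms into sheaves extended from an affine open  (file Dict/HomExt.lean) -/

theorem existsUnique_hom (M G : X.Modules) {U : X.Opens} (hU : IsAffineOpen U) (hM : QCOn M U)
    (hG : ExtFrom G U) (g : Γ(M, U) →ₗ[Γ(X, U)] Γ(G, U)) :
    ∃! c : M ⟶ G, ∀ s, c.app U s = g s :=
  sorry

/-! ### EXT : existence of extended sheaves  (file Dict/ExtSheaf.lean) -/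

theorem exists_extFrom {U : X.Opens} (hU : IsAffineOpen U) (N : Type u) [AddCommGroup N]
    [Module Γ(X, U) N] :
    ∃ G : X.Modules, ExtFrom G U ∧ QCOn G U ∧ Nonempty (Γ(G, U) ≃ₗ[Γ(X, U)] N) :=
  sorry

theorem extFrom_pushforward {X' : Scheme.{u}} (f : X' ⟶ X) (G : X'.Modules) (U' : X'.Opens)
    (U : X.Opens) (h : U' ≤ f ⁻¹ᵁ U) (hG : ExtFrom G U') :
    ExtFrom ((Scheme.Modules.pushforward f).obj G) U :=
  sorry

/-! ### FIB : sections of fibre products  (file Dict/FibProd.lean) -/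

theorem pullback_app_ext {F₁ F₂ F₀ : X.Modules} (a₁ : F₁ ⟶ F₀) (a₂ : F₂ ⟶ F₀) (V : X.Opens)
    (s t : Γ(pullback a₁ a₂, V))
    (h₁ : (pullback.fst a₁ a₂).app V s = (pullback.fst a₁ a₂).app V t)
    (h₂ : (pullback.snd a₁ a₂).app V s = (pullback.snd a₁ a₂).app V t) : s = t :=
  sorry

theorem pullback_app_exists {F₁ F₂ F₀ : X.Modules} (a₁ : F₁ ⟶ F₀) (a₂ : F₂ ⟶ F₀) (V : X.Opens)
    (s₁ : Γ(F₁, V)) (s₂ : Γ(F₂, V)) (h : a₁.app V s₁ = a₂.app V s₂) :
    ∃ s : Γ(pullback a₁ a₂, V),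
      (pullback.fst a₁ a₂).app V s = s₁ ∧ (pullback.snd a₁ a₂).app V s = s₂ :=
  sorry

/-! ### TWO : the two-cover theorems  (file Dict/TwoCover.lean) -/

theorem gsec_isQC (𝒰 : Cov2 X) (M : X.Modules) [M.IsQuasicoherent] : (gsec 𝒰 M).IsQC :=
  sorry

theorem exists_glue (𝒰 : Cov2 X) (T : GTriple 𝒰) (hT : T.IsQC) :
    ∃ M : X.Modules, M.IsQuasicoherent ∧ Nonempty (GTriple.Iso (gsec 𝒰 M) T) :=
  sorry

theorem iso_of_gsec_iso (𝒰 : Cov2 X) (M M' : X.Modules) [M.IsQuasicoherent] [M'.IsQuasicoherent]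
    (e : GTriple.Iso (gsec 𝒰 M) (gsec 𝒰 M')) : Nonempty (M ≅ M') :=
  sorry

/-! ### PB : sections of a pullback  (file Dict/PullbackSections.lean) -/

theorem mres_pbMap {X' : Scheme.{u}} (f : X' ⟶ X) (M : X.Modules) {U V : X.Opens}
    {U' V' : X'.Opens} (h : U' ≤ f ⁻¹ᵁ U) (h' : V' ≤ f ⁻¹ᵁ V) (hVU : V ≤ U) (hVU' : V' ≤ U')
    (s : Γ(M, U)) :
    mres _ hVU' (pbMap f M U U' h s) = pbMap f M V V' h' (mres M hVU s) :=
  sorry

theorem isBCMap_pbMap {X' : Scheme.{u}} (f : X' ⟶ X) (M : X.Modules) {U : X.Opens}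
    {U' : X'.Opens} (h : U' ≤ f ⁻¹ᵁ U) (hU : IsAffineOpen U) (hU' : IsAffineOpen U')
    (hM : QCOn M U) (hM' : QCOn ((Scheme.Modules.pullback f).obj M) U') :
    IsBCMap (f.appLE U U' h).hom (pbMap f M U U' h) :=
  sorry

/-! ### TRIV : trivialisations  (file Dict/Triv.lean) -/

theorem sections_equiv_of_trivial (M : X.Modules) (W V : X.Opens) (hVW : V ≤ W)
    (e : (Scheme.Modules.pullback W.ι).obj M ≅ SheafOfModules.unit W.toScheme.ringCatSheaf) :
    Nonempty (Γ(M, V) ≃ₗ[Γ(X, V)] Γ(X, V)) :=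
  sorry

theorem trivial_of_sections_equiv (M : X.Modules) {U : X.Opens} (hU : IsAffineOpen U)
    (hM : QCOn M U) (e : Γ(M, U) ≃ₗ[Γ(X, U)] Γ(X, U)) :
    Nonempty ((Scheme.Modules.pullback U.ι).obj M ≅
      SheafOfModules.unit U.toScheme.ringCatSheaf) :=
  sorry

theorem trivial_iff_top [IsAffine X] (M : X.Modules) [M.IsQuasicoherent] :
    Nonempty (M ≅ SheafOfModules.unit X.ringCatSheaf) ↔
      Nonempty (Γ(M, ⊤) ≃ₗ[Γ(X, ⊤)] Γ(X, ⊤)) :=
  sorry

/-! ### INV : invertible sheaves versus invertible modules  (file Dict/Inv.lean) -/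

theorem invertible_sections (L : X.Modules) (hL : Scheme.Modules.IsInvertible L) {U : X.Opens}
    (hU : IsAffineOpen U) : Module.Invertible Γ(X, U) Γ(L, U) :=
  sorry

theorem isInvertible_of_sections (M : X.Modules) [M.IsQuasicoherent] (U₁ U₂ : X.Opens)
    (h₁ : IsAffineOpen U₁) (h₂ : IsAffineOpen U₂) (hcov : U₁ ⊔ U₂ = ⊤)
    (i₁ : Module.Invertible Γ(X, U₁) Γ(M, U₁)) (i₂ : Module.Invertible Γ(X, U₂) Γ(M, U₂)) :
    Scheme.Modules.IsInvertible M :=
  sorry

/-! ### ALG : commutative algebra  (file Dict/Alg.lean) -/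

section Alg

/-- locally free of rank one => invertible -/
theorem invertible_of_locally_free {R : Type u} [CommRing R] {N : Type u} [AddCommGroup N]
    [Module R N] (s : Set R) (hs : Ideal.span s = ⊤)
    (Rf : s → Type u) [∀ f, CommRing (Rf f)] (φ : ∀ f, R →+* Rf f)
    (hφ : ∀ f : s, @IsLocalization.Away R _ f.1 (Rf f) _ (φ f).toAlgebra)
    (Nf : s → Type u) [∀ f, AddCommGroup (Nf f)] [∀ f, Module (Rf f) (Nf f)]
    (ρ : ∀ f, N →ₛₗ[φ f] Nf f) (hρ : ∀ f : s, IsLocAt (φ f) f.1 (ρ f))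
    (free : ∀ f, Nonempty (Nf f ≃ₗ[Rf f] Rf f)) : Module.Invertible R N :=
  sorry

/-- invertible => locally free of rank one -/
theorem exists_free_of_invertible {R : Type u} [CommRing R] {N : Type u} [AddCommGroup N]
    [Module R N] [Module.Invertible R N] (p : Ideal R) [p.IsPrime] :
    ∃ f : R, f ∉ p ∧ ∀ (Rf : Type u) [CommRing Rf] (φ : R →+* Rf)
      (_ : @IsLocalization.Away R _ f Rf _ φ.toAlgebra)
      (Nf : Type u) [AddCommGroup Nf] [Module Rf Nf] (ρ : N →ₛₗ[φ] Nf) (_ : IsLocAt φ f ρ),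
      Nonempty (Nf ≃ₗ[Rf] Rf) :=
  sorry

/-- transport of invertibility along a ring isomorphism -/
theorem invertible_of_ringEquiv {R S : Type u} [CommRing R] [CommRing S] (θ : R ≃+* S)
    {N N' : Type u} [AddCommGroup N] [Module R N] [AddCommGroup N'] [Module S N']
    (e : N ≃+ N') (he : ∀ (r : R) (n : N), e (r • n) = θ r • e n)
    (h : Module.Invertible S N') : Module.Invertible R N :=
  sorry

/-- transport of base change maps along ring isomorphisms -/
theorem isBCMap_of_ringEquiv {R S R' S' : Type u} [CommRing R] [CommRing S] [CommRing R']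
    [CommRing S'] (f : R →+* S) (f' : R' →+* S') (θ : R ≃+* R') (θ' : S ≃+* S')
    (hθ : ∀ r, θ' (f r) = f' (θ r))
    {M N M' N' : Type u} [AddCommGroup M] [Module R M] [AddCommGroup N] [Module S N]
    [AddCommGroup M'] [Module R' M'] [AddCommGroup N'] [Module S' N']
    (β : M →ₛₗ[f] N) (β' : M' →ₛₗ[f'] N') (e : M ≃+ M') (e' : N ≃+ N')
    (he : ∀ (r : R) (m : M), e (r • m) = θ r • e m)
    (he' : ∀ (s : S) (n : N), e' (s • n) = θ' s • e' n)
    (hβ : ∀ m, e' (β m) = β' (e m)) (h : IsBCMap f' β') : IsBCMap f β :=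
  sorry

/-- the rigidity criterion -/
theorem free_iff_rigid {R A : Type u} [CommRing R] [CommRing A] (ev : R →+* A)
    (hev : Function.Surjective ev) {N P : Type u} [AddCommGroup N] [Module R N] [AddCommGroup P]
    [Module A P] [Module.Invertible R N] (β : N →ₛₗ[ev] P) (hβ : IsBCMap ev β) :
    Nonempty (P ≃ₗ[A] A) ↔
      ∃ n : N, ∀ m : N, ∃ r : R, m - r • n ∈ (RingHom.ker ev) • (⊤ : Submodule R N) :=
  sorry

end Alg

end Fermat.Agent.S25.Dict.Skeleton
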