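/-
S25 / block D (Dictionary): SKELETON of the geometry layer (charts of `C ×ₖ Spec A`), statements only.
Owner: helper249.
-/
import Fermat.Agent.S25.ProductChartsDefs

set_option autoImplicit false

universe u

open CategoryTheory CategoryTheory.Limits AlgebraicGeometry AlgebraicGeometry.RelPicard
  NeronModelInfra TopologicalSpace
open scoped TensorProduct

namespace Fermat.Agent.S25.Geo.Skeleton

open Fermat.Agent.S25.Mod

variable {k : Type u} [Field k] {C : Scheme.{u}} {c : C ⟶ Spec (CommRingCat.of k)}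
  {ε : SchemeHomOver (𝟙 (Spec (CommRingCat.of k))) c}

/-! ### GEO-A1 (file ProductCharts/Chart.lean) -/

theorem isAffineOpen_fst_preimage (c : C ⟶ Spec (CommRingCat.of k)) (A : Type u) [CommRing A]
    [Algebra k A] {W : C.Opens} (hW : IsAffineOpen W) :
    IsAffineOpen (pullback.fst c (sp k A) ⁻¹ᵁ W) :=
  sorry

theorem exists_chartIso (c : C ⟶ Spec (CommRingCat.of k)) (A : Type u) [CommRing A] [Algebra k A]
    {W : C.Opens} (hW : IsAffineOpen W) (B : Type u) [CommRing B] [Algebra k B]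
    (i : B ≃+* Γ(C, W))
    (str : ∀ a : k, i (algebraMap k B a) =
      c.appLE ⊤ W le_top ((Scheme.ΓSpecIso (CommRingCat.of k)).inv a))
    (V : (pullback c (sp k A)).Opens) (hV : V = pullback.fst c (sp k A) ⁻¹ᵁ W) :
    ∃ θ : A ⊗[k] B ≃+* Γ(pullback c (sp k A), V),
      ∀ (a : A) (b : B), θ (a ⊗ₜ b) = tmulFun c A W V hV.le a (i b) :=
  sorry

/-! ### GEO-A2 (file ProductCharts/Inter.lean) -/

theorem inter_eq_basicOpen₁ (G : GeomCharts c ε) : G.W₁ ⊓ G.W₂ = C.basicOpen (G.i₁ G.𝔠.x) :=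
  sorry

theorem inter_eq_basicOpen₂ (G : GeomCharts c ε) : G.W₁ ⊓ G.W₂ = C.basicOpen (G.i₂ G.𝔠.y) :=
  sorry

/-! ### GEO-A3 (file ProductCharts/Exists.lean) -/

theorem nonempty_prodChart (G : GeomCharts c ε) (A : Type u) [CommRing A] [Algebra k A] :
    Nonempty (ProdChart G A) :=
  sorry

/-! ### GEO-B (file ProductCharts/BaseChange.lean) -/

section BC

variable {G : GeomCharts c ε} {A A' : Type u} [CommRing A] [Algebra k A] [CommRing A']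
  [Algebra k A'] (P : ProdChart G A) (P' : ProdChart G A') (φ : A →ₐ[k] A')

theorem le_bc₁ : P'.𝒰.U₁ ≤ baseChangeSnd c (affHom φ) ⁻¹ᵁ P.𝒰.U₁ :=
  sorry

theorem le_bc₂ : P'.𝒰.U₂ ≤ baseChangeSnd c (affHom φ) ⁻¹ᵁ P.𝒰.U₂ :=
  sorry

theorem le_bc₁₂ : P'.𝒰.U₁₂ ≤ baseChangeSnd c (affHom φ) ⁻¹ᵁ P.𝒰.U₁₂ :=
  sorry

theorem appLE_θ₁ (r : G.𝔠.R₁ A) :
    (baseChangeSnd c (affHom φ)).appLE _ _ (le_bc₁ P P' φ) (P.θ₁ r) = P'.θ₁ (G.𝔠.bc₁ φ r) :=
  sorry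

theorem appLE_θ₂ (r : G.𝔠.R₂ A) :
    (baseChangeSnd c (affHom φ)).appLE _ _ (le_bc₂ P P' φ) (P.θ₂ r) = P'.θ₂ (G.𝔠.bc₂ φ r) :=
  sorry

theorem appLE_θ₁₂ (r : G.𝔠.R₁₂ A) :
    (baseChangeSnd c (affHom φ)).appLE _ _ (le_bc₁₂ P P' φ) (P.θ₁₂ r) = P'.θ₁₂ (G.𝔠.bc₁₂ φ r) :=
  sorry

end BC

/-! ### GEO-C (file ProductCharts/Rig.lean) -/

section Rig

variable {G : GeomCharts c ε} {A : Type u} [CommRing A] [Algebra k A] (P : ProdChart G A)

theorem le_rig : ⊤ ≤ rigSection c (sp k A) ε ⁻¹ᵁ P.𝒰.U₂ :=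
  sorry

theorem appLE_rig (r : G.𝔠.R₂ A) :
    (Scheme.ΓSpecIso (CommRingCat.of A)).hom
      ((rigSection c (sp k A) ε).appLE _ ⊤ (le_rig P) (P.θ₂ r)) = G.𝔠.ev₀ A r :=
  sorry

end Rig

end Fermat.Agent.S25.Geo.Skeleton
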