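/-
S25 / block L SKELETON (contains sorry).  Final files:
  Fermat/Agent/S25/FiniteModelLemmas.lean   (L1)
  Fermat/Agent/S25/P1Lattice.lean           (L2)
  Fermat/Agent/S25/TripleFinite.lean        (L3)
-/
import Fermat.Agent.S25.FiniteModel
import Fermat.Agent.S25.Core

set_option autoImplicit false

universe u

open scoped TensorProduct Polynomial

namespace Fermat.Agent.S25

namespace FiniteModel

variable {A : Type u} [CommRing A] {K0 K1 : Type u} [AddCommGroup K0] [Module A K0]
    [AddCommGroup K1] [Module A K1] {δ : K0 →ₗ[A] K1}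

/-! ### L1: formal consequences -/

theorem injective_iff (m : FiniteModel δ) : Function.Injective δ ↔ Function.Injective m.d := sorry
theorem surjective_iff (m : FiniteModel δ) : Function.Surjective δ ↔ Function.Surjective m.d := sorry

noncomputable def kerEquiv (m : FiniteModel δ) : LinearMap.ker δ ≃ₗ[A] LinearMap.ker m.d := sorry
noncomputable def cokerEquiv (m : FiniteModel δ) :
    (K1 ⧸ LinearMap.range δ) ≃ₗ[A] (m.P1 ⧸ LinearMap.range m.d) := sorry

noncomputable def baseChange (m : FiniteModel δ) (A' : Type u) [CommRing A'] [Algebra A A'] :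
    FiniteModel (δ.baseChange A') := sorry

/-- the locus where `δ` is fibrewise bijective -/
def bijLocus (δ : K0 →ₗ[A] K1) : Set (PrimeSpectrum A) :=
  {p | Function.Bijective (δ.baseChange p.asIdeal.ResidueField)}

theorem isOpen_bijLocus (m : FiniteModel δ) : IsOpen (bijLocus δ) := sorry

theorem bijective_baseChange_iff (m : FiniteModel δ) (A' : Type u) [CommRing A'] [Algebra A A'] :
    Function.Bijective (δ.baseChange A') ↔
      ∀ p : PrimeSpectrum A', PrimeSpectrum.comap (algebraMap A A') p ∈ bijLocus δ := sorry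

theorem finite_ker_coker_field (m : FiniteModel δ) (K : Type u) [Field K] [Algebra A K] :
    Module.Finite K (LinearMap.ker (δ.baseChange K)) ∧
      Module.Finite K ((K ⊗[A] K1) ⧸ LinearMap.range (δ.baseChange K)) := sorry

theorem exists_chi (m : FiniteModel δ) : ∃ f : PrimeSpectrum A → ℤ, IsLocallyConstant f ∧
    ∀ (K : Type u) [Field K] [Algebra A K],
      (Module.finrank K (LinearMap.ker (δ.baseChange K)) : ℤ) -
        Module.finrank K ((K ⊗[A] K1) ⧸ LinearMap.range (δ.baseChange K)) =
      f (PrimeSpectrum.comap (algebraMap A K) ⊥) := sorry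

theorem ker_finite_projective_of_surjective (m : FiniteModel δ) (h : Function.Surjective δ) :
    Module.Finite A (LinearMap.ker δ) ∧ Module.Projective A (LinearMap.ker δ) := sorry

/-- if `δ` is onto, `ker` commutes with base change -/
theorem ker_baseChange_of_surjective (m : FiniteModel δ) (h : Function.Surjective δ)
    (A' : Type u) [CommRing A'] [Algebra A A'] :
    LinearMap.range ((LinearMap.ker δ).subtype.baseChange A') = LinearMap.ker (δ.baseChange A') ∧
      Function.Injective ((LinearMap.ker δ).subtype.baseChange A') := sorry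

end FiniteModel

/-! ### L2: the P¹-lattice theorem -/

theorem exists_finiteModel_of_lattice {A : Type u} [CommRing A]
    {N₁ N₂ N₁₂ : Type u} [AddCommGroup N₁] [AddCommGroup N₂] [AddCommGroup N₁₂]
    [Module A N₁] [Module A N₂] [Module A N₁₂]
    [Module A[X] N₁] [Module A[X] N₂] [IsScalarTower A A[X] N₁] [IsScalarTower A A[X] N₂]
    [Module.Finite A[X] N₁] [Module.Projective A[X] N₁]
    [Module.Finite A[X] N₂] [Module.Projective A[X] N₂]
    (t : N₁₂ ≃ₗ[A] N₁₂) (ρ₁ : N₁ →ₗ[A] N₁₂) (ρ₂ : N₂ →ₗ[A] N₁₂)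
    (h₁ : ∀ n, ρ₁ ((Polynomial.X : A[X]) • n) = t (ρ₁ n))
    (h₂ : ∀ n, ρ₂ ((Polynomial.X : A[X]) • n) = t.symm (ρ₂ n))
    (surj₁ : ∀ n : N₁₂, ∃ (m : ℕ) (n₁ : N₁), ρ₁ n₁ = (t ^ m) n)
    (surj₂ : ∀ n : N₁₂, ∃ (m : ℕ) (n₂ : N₂), ρ₂ n₂ = (t.symm ^ m) n)
    (inj₁ : Function.Injective ρ₁) (inj₂ : Function.Injective ρ₂) :
    Nonempty (FiniteModel (ρ₁.coprod (-ρ₂))) := sorry

/-! ### L3: application to triples -/

theorem Triple.exists_finiteModel {k : Type u} [Field k] {𝔠 : CurveCharts k}
    {A : Type u} [CommRing A] [Algebra k A] (T : Triple 𝔠 A) (hT : T.IsInvertible) :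
    Nonempty (FiniteModel T.δ) := sorry

end Fermat.Agent.S25
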