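/-
S25 / block X SKELETON (contains sorry): Riemann-Roch-lite over fields, vanishing, covering lemma.
Owner of the skeleton: helper177.
One section = one task = one final file `Fermat/Agent/S25/RR/<Name>.lean`, namespace
`Fermat.Agent.S25.RR` (NOT `RRSkel`), same names and statements.
HOW TO USE RESULTS OF OTHER SECTIONS: if the final file `RR/<Other>.lean` is on main, import it and use
`RR.foo`; otherwise `import Fermat.Agent.S25.WIP.RRSkeleton` and use `RRSkel.foo`.  Land your file as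
soon as it compiles without a sorry of its own; helper177 switches `RRSkel.foo` to `RR.foo` later.
-/
import Fermat.Agent.S25.RR.Defs
import Fermat.Agent.S25.Triple.TensorExact
import Fermat.Agent.S25.Triple.IdealSMul
import Fermat.Agent.S25.Triple.IsoLemmas
import Fermat.Agent.S25.Triple.QC
import Fermat.Agent.S25.Triple.IHom
import Fermat.Agent.S25.Alg.Dedekind
import Fermat.Agent.S25.Alg.Points
import Fermat.Agent.S25.TripleFinite
import Fermat.Agent.S25.P1Lattice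
import Fermat.Agent.S25.FiniteModelLemmas

set_option autoImplicit false

universe u

open scoped TensorProduct
open Function

namespace Fermat.Agent.S25.RRSkel

/-! ## X1 : `RR/Artin.lean` (import Mathlib only) -/

section X1

/-- An invertible module is trivial on anything of finite length. -/
theorem nonempty_tensor_equiv_of_finite (K R N Q : Type*) [Field K] [CommRing R] [Algebra K R]
    [AddCommGroup N] [Module R N] [Module.Invertible R N] [AddCommGroup Q] [Module R Q]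
    [Module K Q] [IsScalarTower K R Q] [Module.Finite K Q] : Nonempty (N ⊗[R] Q ≃ₗ[R] Q) := by
  sorry

theorem finite_quotient_of_ne_bot {K R : Type*} [Field K] [CommRing R] [IsDomain R] [Algebra K R]
    (x : R) (hfin : (Polynomial.aeval (R := K) x).toRingHom.Finite) (I : Ideal R) (hI : I ≠ ⊥) :
    Module.Finite K (R ⧸ I) := by sorry

theorem finite_of_smul_eq_zero {K R M : Type*} [Field K] [CommRing R] [IsDomain R] [Algebra K R]
    (x : R) (hfin : (Polynomial.aeval (R := K) x).toRingHom.Finite)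
    [AddCommGroup M] [Module R M] [Module K M] [IsScalarTower K R M] [Module.Finite R M]
    (a : R) (ha : a ≠ 0) (h : ∀ m : M, a • m = 0) : Module.Finite K M := by sorry

theorem eq_zero_or_eq_zero_of_smul_eq_zero {R N : Type*} [CommRing R] [IsDomain R] [AddCommGroup N]
    [Module R N] [Module.Invertible R N] (a : R) (n : N) (h : a • n = 0) : a = 0 ∨ n = 0 := by
  sorry

/-- An invertible module over a domain has rank one. -/
theorem exists_ne_zero_forall_smul_mem_span {R N : Type*} [CommRing R] [IsDomain R]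
    [AddCommGroup N] [Module R N] [Module.Invertible R N] (s : N) (hs : s ≠ 0) :
    ∃ a : R, a ≠ 0 ∧ ∀ n : N, a • n ∈ Submodule.span R {s} := by sorry

/-- Chinese remainder theorem: a quotient of `N` through which the evaluations at `#Z` distinct
rational points factor has dimension `≥ #Z`. -/
theorem card_le_finrank_quotient {K R N : Type*} [Field K] [CommRing R] [Algebra K R]
    [AddCommGroup N] [Module R N] [Module.Invertible R N] (Z : Finset (R →ₐ[K] K))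
    (S : Submodule R N) (hS : ∀ φ ∈ Z, S ≤ RingHom.ker φ • (⊤ : Submodule R N))
    [Module K (N ⧸ S)] [IsScalarTower K R (N ⧸ S)] [Module.Finite K (N ⧸ S)] :
    Z.card ≤ Module.finrank K (N ⧸ S) := by sorry

end X1

open Triple

variable {k : Type u} [Field k] {𝔠 : CurveCharts k}

/-! ## X2 : `RR/FinCoh.lean` -/

section X2

theorem exists_finiteModel {A : Type u} [CommRing A] [Algebra k A] (T : Triple 𝔠 A)
    (hT : T.IsInvertible) : Nonempty (FiniteModel T.δ) := by sorry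

variable {K : Type u} [Field K] [Algebra k K]

theorem finCoh {T : Triple 𝔠 K} (hT : T.IsInvertible) : T.FinCoh := by sorry

/-- `h¹ = 0` means that `δ` is onto. -/
theorem h1_eq_zero_iff {T : Triple 𝔠 K} (hT : T.FinCoh) : T.h1 = 0 ↔ Surjective T.δ := by sorry

theorem h0_eq_zero_iff {T : Triple 𝔠 K} (hT : T.FinCoh) : T.h0 = 0 ↔ Injective T.δ := by sorry

variable (𝔠 K)

theorem h0_unit : (unit 𝔠 K).h0 = 1 := by sorry

theorem h1_unit : (unit 𝔠 K).h1 = 𝔠.genus := by sorry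

theorem chi_unit : (unit 𝔠 K).chi = 1 - 𝔠.genus := by sorry

end X2

/-! ## X3 : `RR/TensorTorsion.lean` -/

section X3

variable {K : Type u} [Field K] [Algebra k K]

theorem finite_tensor₁ {T Q : Triple 𝔠 K} (hT : T.IsInvertible) [Module.Finite K Q.N₁] :
    Module.Finite K (T.tensor Q).N₁ ∧
      Module.finrank K (T.tensor Q).N₁ = Module.finrank K Q.N₁ := by sorry

theorem finite_tensor₂ {T Q : Triple 𝔠 K} (hT : T.IsInvertible) [Module.Finite K Q.N₂] :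
    Module.Finite K (T.tensor Q).N₂ ∧
      Module.finrank K (T.tensor Q).N₂ = Module.finrank K Q.N₂ := by sorry

theorem finite_tensor₁₂ {T Q : Triple 𝔠 K} (hT : T.IsInvertible) [Module.Finite K Q.N₁₂] :
    Module.Finite K (T.tensor Q).N₁₂ ∧
      Module.finrank K (T.tensor Q).N₁₂ = Module.finrank K Q.N₁₂ := by sorry

/-- `χ(T ⊗ Q) = χ(Q)` for a torsion sheaf `Q`. -/
theorem chi_tensor_torsion {T Q : Triple 𝔠 K} (hT : T.IsInvertible) (hQ : Q.IsQC)
    [Module.Finite K Q.N₁] [Module.Finite K Q.N₂] :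
    (T.tensor Q).FinCoh ∧ (T.tensor Q).h1 = 0 ∧ (T.tensor Q).chi = Q.chi := by sorry

/-- `χ(T ⊗ S) = χ(T ⊗ S') + χ(Q)` for `0 → S' → S → Q → 0`, `Q` torsion. -/
theorem chi_tensor_of_shortExact {T S' S Q : Triple 𝔠 K} (hT : T.IsInvertible)
    (hS' : S'.IsInvertible) (hS : S.IsInvertible) (hQ : Q.IsQC) {f : Hom S' S} {g : Hom S Q}
    (E : ShortExact f g) [Module.Finite K Q.N₁] [Module.Finite K Q.N₂] :
    (T.tensor S).chi = (T.tensor S').chi + Q.chi := by sorry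

theorem h1_tensor_eq_zero_of_shortExact {T S' S Q : Triple 𝔠 K} (hT : T.IsInvertible)
    (hS' : S'.IsInvertible) (hS : S.IsInvertible) (hQ : Q.IsQC) {f : Hom S' S} {g : Hom S Q}
    (E : ShortExact f g) [Module.Finite K Q.N₁] [Module.Finite K Q.N₂]
    (h : (T.tensor S').h1 = 0) : (T.tensor S).h1 = 0 := by sorry

end X3

/-! ## X4 : `RR/Section.lean` -/

section X4

theorem secQuot_isQC {A : Type u} [CommRing A] [Algebra k A] {T : Triple 𝔠 A} (hT : T.IsQC)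
    (s : T.H0) : (T.secQuot s).IsQC := by sorry

variable [IsAlgClosed k] {K : Type u} [Field K] [Algebra k K] {T : Triple 𝔠 K}

theorem ρ₁_injective (hT : T.IsInvertible) : Injective T.ρ₁ := by sorry

theorem ρ₂_injective (hT : T.IsInvertible) : Injective T.ρ₂ := by sorry

theorem secHom_shortExact (hT : T.IsInvertible) (s : T.H0) (hs : s ≠ 0) :
    ShortExact (T.secHom s) (T.secProj s) := by sorry

theorem secQuot_finite₁ (hT : T.IsInvertible) (s : T.H0) (hs : s ≠ 0) :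
    Module.Finite K (T.secQuot s).N₁ := by sorry

theorem secQuot_finite₂ (hT : T.IsInvertible) (s : T.H0) (hs : s ≠ 0) :
    Module.Finite K (T.secQuot s).N₂ := by sorry

theorem deg_eq_chi_secQuot (hT : T.IsInvertible) (s : T.H0) (hs : s ≠ 0) :
    T.deg = (T.secQuot s).chi := by sorry

/-- an effective line bundle has degree `≥ 0` -/
theorem deg_nonneg (hT : T.IsInvertible) (h : 0 < T.h0) : 0 ≤ T.deg := by sorry

/-- a nonzero section has at most `deg T` zeros -/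
theorem card_zeros_le (hT : T.IsInvertible) (s : T.H0) (hs : s ≠ 0)
    (Z : Finset (𝔠.B₁ →ₐ[k] K))
    (hZ : ∀ σ ∈ Z, s.1.1 ∈ graphIdeal₁ σ • (⊤ : Submodule (𝔠.R₁ K) T.N₁)) :
    (Z.card : ℤ) ≤ T.deg := by sorry

end X4

/-! ## X5 : `RR/Odiv.lean` (any base ring `A`) -/

section X5

variable {A : Type u} [CommRing A] [Algebra k A]

theorem isQC_Idiv (I : Ideal (𝔠.R₁ A)) : (Idiv I).IsQC := by sorry
theorem isQC_Odiv (I : Ideal (𝔠.R₁ A)) : (Odiv I).IsQC := by sorry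
theorem isQC_Idiv₂ (J : Ideal (𝔠.R₂ A)) : (Idiv₂ J).IsQC := by sorry
theorem isQC_Odiv₂ (J : Ideal (𝔠.R₂ A)) : (Odiv₂ J).IsQC := by sorry

/-- If `D = V(I)` is finite over `A` then `D` does not meet `y = 0`. -/
theorem exists_yA_mul_sub_one_mem (I : Ideal (𝔠.R₁ A)) (p : Polynomial A) (hp : p.Monic)
    (hpI : Polynomial.aeval (𝔠.xA A) p ∈ I) : ∃ v : 𝔠.R₂ A, 𝔠.yA A * v - 1 ∈ I₂ I := by sorry

theorem ρ₂_bijective_of_yA {T : Triple 𝔠 A} (hT : T.IsQC)
    (h : Bijective (fun n : T.N₂ => 𝔠.yA A • n)) : Bijective T.ρ₂ := by sorry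

theorem ρ₁_bijective_of_xA {T : Triple 𝔠 A} (hT : T.IsQC)
    (h : Bijective (fun n : T.N₁ => 𝔠.xA A • n)) : Bijective T.ρ₁ := by sorry

theorem tensor_Odiv_ρ₂_bijective {T : Triple 𝔠 A} (hT : T.IsQC) (I : Ideal (𝔠.R₁ A))
    (p : Polynomial A) (hp : p.Monic) (hpI : Polynomial.aeval (𝔠.xA A) p ∈ I) :
    Bijective (T.tensor (Odiv I)).ρ₂ := by sorry

theorem Odiv_ρ₂_bijective (I : Ideal (𝔠.R₁ A))
    (p : Polynomial A) (hp : p.Monic) (hpI : Polynomial.aeval (𝔠.xA A) p ∈ I) :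
    Bijective (Odiv I).ρ₂ := by sorry

end X5

/-! ## X6 : `RR/IdivField.lean` -/

section X6

variable [IsAlgClosed k] {K : Type u} [Field K] [Algebra k K]

theorem exists_monic_aeval_mem (I : Ideal (𝔠.R₁ K)) (hI : I ≠ ⊥) :
    ∃ p : Polynomial K, p.Monic ∧ Polynomial.aeval (𝔠.xA K) p ∈ I := by sorry

theorem isInvertible_Idiv (I : Ideal (𝔠.R₁ K)) (hI : I ≠ ⊥) : (Idiv I).IsInvertible := by sorry

theorem finite_Odiv₁ (I : Ideal (𝔠.R₁ K)) (hI : I ≠ ⊥) : Module.Finite K (Odiv I).N₁ := by sorry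

theorem finite_Odiv₂ (I : Ideal (𝔠.R₁ K)) (hI : I ≠ ⊥) : Module.Finite K (Odiv I).N₂ := by sorry

theorem chi_Odiv (I : Ideal (𝔠.R₁ K)) (hI : I ≠ ⊥) :
    (Odiv I).chi = Module.finrank K (𝔠.R₁ K ⧸ I) := by sorry

theorem chi_tensor_Idiv {T : Triple 𝔠 K} (hT : T.IsInvertible) (I : Ideal (𝔠.R₁ K)) (hI : I ≠ ⊥) :
    (T.tensor (Idiv I)).chi = T.chi - Module.finrank K (𝔠.R₁ K ⧸ I) := by sorry

theorem graphIdeal₁_ne_bot (σ : 𝔠.B₁ →ₐ[k] K) : graphIdeal₁ σ ≠ ⊥ := by sorry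

theorem finrank_quot_graphIdeal₁ (σ : 𝔠.B₁ →ₐ[k] K) :
    Module.finrank K (𝔠.R₁ K ⧸ graphIdeal₁ σ) = 1 := by sorry

theorem isInvertible_Ipt (σ : 𝔠.B₁ →ₐ[k] K) : (Ipt σ).IsInvertible := by sorry

theorem chi_tensor_Ipt {T : Triple 𝔠 K} (hT : T.IsInvertible) (σ : 𝔠.B₁ →ₐ[k] K) :
    (T.tensor (Ipt σ)).chi = T.chi - 1 := by sorry

/-- If `H¹(T) = 0` and some section of `T` does not vanish at `σ` then `H¹(T(-σ)) = 0`. -/
theorem h1_tensor_Ipt_eq_zero {T : Triple 𝔠 K} (hT : T.IsInvertible) (σ : 𝔠.B₁ →ₐ[k] K)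
    (h1 : T.h1 = 0) (s : T.H0)
    (hs : s.1.1 ∉ graphIdeal₁ σ • (⊤ : Submodule (𝔠.R₁ K) T.N₁)) :
    (T.tensor (Ipt σ)).h1 = 0 := by sorry

end X6

/-! ## X7 : `RR/P0.lean` -/

section X7

variable (𝔠)

theorem e₀_y : 𝔠.e₀ 𝔠.y = 0 := by sorry

theorem exists_pow_ker_e₀_le : ∃ N : ℕ, (RingHom.ker 𝔠.e₀) ^ N ≤ Ideal.span {𝔠.y} := by sorry

/-- `V(y) = P₀ × Spec A` set-theoretically, uniformly in `A`. -/
theorem exists_pow_ker_ev₀_le : ∃ N : ℕ, ∀ (A : Type u) [CommRing A] [Algebra k A],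
    (RingHom.ker (𝔠.ev₀ A).toRingHom) ^ N ≤ Ideal.span {𝔠.yA A} := by sorry

theorem yA_mem_ker_ev₀ (A : Type u) [CommRing A] [Algebra k A] :
    𝔠.yA A ∈ RingHom.ker (𝔠.ev₀ A).toRingHom := by sorry

theorem J₁₂_ker_ev₀ (A : Type u) [CommRing A] [Algebra k A] :
    J₁₂ (RingHom.ker (𝔠.ev₀ A).toRingHom) = ⊤ := by sorry

variable {𝔠} [IsAlgClosed k] {K : Type u} [Field K] [Algebra k K]

theorem isInvertible_IP0 : (IP0 𝔠 K).IsInvertible := by sorry

theorem finite_OP0₁ : Module.Finite K (Odiv₂ (RingHom.ker (𝔠.ev₀ K).toRingHom)).N₁ := by sorry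

theorem finite_OP0₂ : Module.Finite K (Odiv₂ (RingHom.ker (𝔠.ev₀ K).toRingHom)).N₂ := by sorry

theorem chi_OP0 : (Odiv₂ (RingHom.ker (𝔠.ev₀ K).toRingHom)).chi = 1 := by sorry

theorem chi_tensor_IP0 {T : Triple 𝔠 K} (hT : T.IsInvertible) :
    (T.tensor (IP0 𝔠 K)).chi = T.chi - 1 := by sorry

/-- If `H¹(T(-P₀)) = 0` then some section of `T` generates `T` at `P₀`. -/
theorem exists_section_not_mem {T : Triple 𝔠 K} (hT : T.IsInvertible)
    (h : (T.tensor (IP0 𝔠 K)).h1 = 0) : ∃ s : T.H0,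
      s.1.2 ∉ RingHom.ker (𝔠.ev₀ K).toRingHom • (⊤ : Submodule (𝔠.R₂ K) T.N₂) := by sorry

end X7

/-! ## X8 : `RR/Otw.lean` -/

section X8

variable (𝔠) (A : Type u) [CommRing A] [Algebra k A]

theorem isInvertible_Otw (j : ℕ) : (Otw 𝔠 A j).IsInvertible := by sorry

theorem isRigid_Otw (j : ℕ) : (Otw 𝔠 A j).IsRigid := by sorry

theorem Otw_shortExact (j : ℕ) : ShortExact (Otw.step 𝔠 A j) (Otw.proj 𝔠 A j) := by sorry

theorem isQC_Oinf (j : ℕ) : (Oinf 𝔠 A j).IsQC := by sorry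

theorem nonempty_iso_Otw_zero : Nonempty (Iso (Otw 𝔠 A 0) (unit 𝔠 A)) := by sorry

theorem nonempty_iso_Otw_add (i j : ℕ) :
    Nonempty (Iso ((Otw 𝔠 A i).tensor (Otw 𝔠 A j)) (Otw 𝔠 A (i + j))) := by sorry

theorem degInf_pos : 0 < 𝔠.degInf := by sorry

variable (K : Type u) [Field K] [Algebra k K]

theorem finite_Oinf₁ (j : ℕ) : Module.Finite K (Oinf 𝔠 K j).N₁ := by sorry

theorem finite_Oinf₂ (j : ℕ) : Module.Finite K (Oinf 𝔠 K j).N₂ := by sorry

theorem chi_Oinf (j : ℕ) : (Oinf 𝔠 K j).chi = 𝔠.degInf := by sorry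

variable {𝔠 K}

theorem chi_tensor_Otw {T : Triple 𝔠 K} (hT : T.IsInvertible) (j : ℕ) :
    (T.tensor (Otw 𝔠 K j)).chi = T.chi + j * 𝔠.degInf := by sorry

end X8

/-! ## X9 : `RR/Vanish.lean` -/

section X9

variable (𝔠)

/-- `H¹(𝒪(m D_∞)) = 0` for `m ≫ 0`, over every base. -/
theorem exists_Otw_surjective : ∃ m₀ : ℕ, ∀ (A : Type u) [CommRing A] [Algebra k A] (m : ℕ),
    m₀ ≤ m → Surjective (Otw 𝔠 A m).δ := by sorry

variable {𝔠} [IsAlgClosed k]

theorem h1_tensor_Otw_eq_zero {K : Type u} [Field K] [Algebra k K] {T : Triple 𝔠 K}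
    (hT : T.IsInvertible) (h : 0 < T.h0) (m : ℕ) (hm : Surjective (Otw 𝔠 K m).δ) :
    (T.tensor (Otw 𝔠 K m)).h1 = 0 := by sorry

variable (𝔠)

/-- Uniform vanishing. -/
theorem exists_uniform_vanishing : ∃ M : ℕ, ∀ (K : Type u) [Field K] [Algebra k K]
    (T : Triple 𝔠 K), T.IsInvertible → 0 ≤ T.deg → ∀ m : ℕ, M ≤ m →
      (T.tensor (Otw 𝔠 K m)).h1 = 0 ∧ ((T.tensor (Otw 𝔠 K m)).tensor (IP0 𝔠 K)).h1 = 0 := by
  sorry

end X9

/-! ## X10 : `RR/Degree.lean` -/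

section X10

variable [IsAlgClosed k] {K : Type u} [Field K] [Algebra k K]

theorem deg_of_iso {T T' : Triple 𝔠 K} (e : Iso T T') : T.deg = T'.deg := by sorry

theorem deg_unit : (unit 𝔠 K).deg = 0 := by sorry

/-- The degree is additive. -/
theorem deg_tensor {T T' : Triple 𝔠 K} (hT : T.IsInvertible) (hT' : T'.IsInvertible) :
    (T.tensor T').deg = T.deg + T'.deg := by sorry

theorem deg_Otw (j : ℕ) : (Otw 𝔠 K j).deg = j * 𝔠.degInf := by sorry

theorem deg_Ipt (σ : 𝔠.B₁ →ₐ[k] K) : (Ipt σ).deg = -1 := by sorry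

theorem deg_IP0 : (IP0 𝔠 K).deg = -1 := by sorry

theorem isInvertible_ptw {T : Triple 𝔠 K} (hT : T.IsInvertible) (l : List (𝔠.B₁ →ₐ[k] K)) :
    (T.ptw l).IsInvertible := by sorry

theorem deg_ptw {T : Triple 𝔠 K} (hT : T.IsInvertible) (l : List (𝔠.B₁ →ₐ[k] K)) :
    (T.ptw l).deg = T.deg - l.length := by sorry

/-- If `T ⊗ T' ≅ 𝒪` then `deg T' = - deg T`. -/
theorem deg_eq_neg_of_iso {T T' : Triple 𝔠 K} (hT : T.IsInvertible) (hT' : T'.IsInvertible)
    (e : Iso (T.tensor T') (unit 𝔠 K)) : T'.deg = - T.deg := by sorry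

end X10

/-! ## X11 : `RR/Cover.lean` -/

section X11

theorem nonempty_iso_tensor_ptw {A : Type u} [CommRing A] [Algebra k A] (T E : Triple 𝔠 A)
    (l : List (𝔠.B₁ →ₐ[k] A)) : Nonempty (Iso (T.tensor (E.ptw l)) ((T.tensor E).ptw l)) := by
  sorry

variable [IsAlgClosed k]

theorem exists_point_step {K : Type u} [Field K] [Algebra k K] {T : Triple 𝔠 K}
    (hT : T.IsInvertible) (h1 : T.h1 = 0) (hchi : 0 < T.chi) (S : Finset (𝔠.B₁ →ₐ[k] k))
    (hS : T.deg < S.card) : ∃ r ∈ S, (T.tensor (Ipt (kpt K r))).h1 = 0 := by sorry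

theorem exists_list_step {K : Type u} [Field K] [Algebra k K] (S : Finset (𝔠.B₁ →ₐ[k] k)) (n : ℕ)
    {T : Triple 𝔠 K} (hT : T.IsInvertible) (h1 : T.h1 = 0) (hchi : T.chi = n)
    (hS : T.deg < S.card) : ∃ l : List (𝔠.B₁ →ₐ[k] k), (∀ r ∈ l, r ∈ S) ∧ l.length = n ∧
      Bijective (T.ptw (l.map (kpt K))).δ := by sorry

variable (𝔠)

/-- COVERING LEMMA.  Finitely many twists `F_l = 𝒪(m D_∞ - Σ_{r ∈ l} r)` of degree `g`, defined over
`k`, such that for every field `K` and every `T` of degree `0` on `C_K` some `T ⊗ F_l (-P₀)` has no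
cohomology. -/
theorem exists_cover : ∃ (m : ℕ) (L : Finset (List (𝔠.B₁ →ₐ[k] k))),
    (∀ l ∈ L, (l.length : ℤ) = m * 𝔠.degInf - 𝔠.genus) ∧
    ∀ (K : Type u) [Field K] [Algebra k K] (T : Triple 𝔠 K), T.IsInvertible →
      T.chi = (unit 𝔠 K).chi →
      ∃ l ∈ L, Bijective ((T.tensor (Ftw K m l)).tensor (IP0 𝔠 K)).δ := by sorry

end X11

/-! ## X12 : `RR/DivOfHom.lean` (any base ring `A`) -/

section X12

variable {A : Type u} [CommRing A] [Algebra k A]

/-- A sub-line-bundle of `𝒪` which is everything along `P₀` is the ideal sheaf of a closed subscheme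
of `W₁ × Spec A`. -/
theorem nonempty_iso_Idiv_of_hom {T : Triple 𝔠 A} (hT : T.IsQC) (f : Hom T (unit 𝔠 A))
    (h₁ : Injective f.f₁) (h₂ : Injective f.f₂) (h₁₂ : Injective f.f₁₂)
    (I : Ideal (𝔠.R₁ A)) (hI : ∀ r : 𝔠.R₁ A, r ∈ I ↔ ∃ n, f.f₁ n = r)
    (hP0 : ∃ (n : T.N₂) (r : 𝔠.R₂ A), r ∈ RingHom.ker (𝔠.ev₀ A).toRingHom ∧
      (show 𝔠.R₂ A from f.f₂ n) + r = 1) :
    Nonempty (Iso T (Idiv I)) := by sorry

end X12

/-! ## X13 : `RR/Effective.lean` -/

section X13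

variable [IsAlgClosed k]

theorem nonempty_iso_Idiv_mul {K : Type u} [Field K] [Algebra k K] (I I' : Ideal (𝔠.R₁ K))
    (hI : I ≠ ⊥) (hI' : I' ≠ ⊥) :
    Nonempty (Iso ((Idiv I).tensor (Idiv I')) (Idiv (I * I'))) := by sorry

variable (𝔠)

/-- Every line bundle of degree `0` on `C_K`, `K` algebraically closed, is
`𝒪(m D_∞ - σ₁ - ... - σₙ)`, `n = m · deg D_∞`, `σᵢ ∈ W₁(K)`; `m` is uniform. -/
theorem exists_iso_ptw : ∃ m : ℕ, ∀ (K : Type u) [Field K] [IsAlgClosed K] [Algebra k K]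
    (T : Triple 𝔠 K), T.IsInvertible → T.chi = (unit 𝔠 K).chi →
    ∃ l : List (𝔠.B₁ →ₐ[k] K), l.length = m * 𝔠.degInf ∧
      Nonempty (Iso T ((Otw 𝔠 K m).ptw l)) := by sorry

end X13

/-! ## X14 : `RR/Ftw.lean` (any base ring; uses block Q of `WIP/ChartsSkeleton.lean`:
`Idiv_isInvertible`, `Idiv_isRigid`, `Idiv_bc`, `isDiv_graphIdeal₁`, `graphIdeal₁_map`, `Otw_isInvertible`,
`Otw_isRigid`, `Otw_bc`) -/

section X14

variable [IsAlgClosed k] {A A' : Type u} [CommRing A] [Algebra k A] [CommRing A'] [Algebra k A']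

theorem isInvertible_ptw' {T : Triple 𝔠 A} (hT : T.IsInvertible) (l : List (𝔠.B₁ →ₐ[k] A)) :
    (T.ptw l).IsInvertible := by sorry

theorem isRigid_ptw {T : Triple 𝔠 A} (hT : T.IsRigid) (l : List (𝔠.B₁ →ₐ[k] A)) :
    (T.ptw l).IsRigid := by sorry

theorem isBC_ptw (φ : A →ₐ[k] A') {T : Triple 𝔠 A} {T' : Triple 𝔠 A'} (h : IsBC φ T T')
    (l : List (𝔠.B₁ →ₐ[k] A)) : IsBC φ (T.ptw l) (T'.ptw (l.map fun σ => φ.comp σ)) := by sorry

variable (𝔠)

theorem isInvertible_Ftw (A : Type u) [CommRing A] [Algebra k A] (m : ℕ)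
    (l : List (𝔠.B₁ →ₐ[k] k)) : (Ftw A m l).IsInvertible := by sorry

theorem isRigid_Ftw (A : Type u) [CommRing A] [Algebra k A] (m : ℕ)
    (l : List (𝔠.B₁ →ₐ[k] k)) : (Ftw A m l).IsRigid := by sorry

theorem isBC_Ftw (φ : A →ₐ[k] A') (m : ℕ) (l : List (𝔠.B₁ →ₐ[k] k)) :
    IsBC φ (Ftw A m l) (Ftw A' m l) := by sorry

theorem nonempty_iso_const_Ftw (A : Type u) [CommRing A] [Algebra k A] (m : ℕ)
    (l : List (𝔠.B₁ →ₐ[k] k)) : Nonempty (Iso ((Ftw k m l).const A) (Ftw A m l)) := by sorry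

theorem deg_Ftw (K : Type u) [Field K] [Algebra k K] (m : ℕ) (l : List (𝔠.B₁ →ₐ[k] k)) :
    (Ftw K m l).deg = m * 𝔠.degInf - l.length := by sorry

end X14

end Fermat.Agent.S25.RRSkel
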