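/-
S25 / block T1: SKELETON of the base-change lemmas (statements only; each `sorry` belongs to a task,
target file in the section header).  Design: helper122.  Never import this file from finished work.
-/
import Fermat.Agent.S25.AlgSpec
import Fermat.Agent.S25.FiniteModel
import Fermat.Agent.S25.Triple.BC

set_option autoImplicit false

universe u

open scoped TensorProduct

namespace Fermat.Agent.S25

/-! ## T1-A : file `Triple/BCModLemmas.lean` (import `Triple/BCMod.lean` only): formal properties -/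

namespace IsBCMap

section A

variable {R S T : Type u} [CommRing R] [CommRing S] [CommRing T] {f : R →+* S} {g : S →+* T}
  {M M' N N' P : Type u} [AddCommGroup M] [Module R M] [AddCommGroup M'] [Module R M']
  [AddCommGroup N] [Module S N] [AddCommGroup N'] [Module S N'] [AddCommGroup P] [Module T P]
  {β : M →ₛₗ[f] N}

theorem semilinear_ext (hβ : IsBCMap f β) {u u' : N →ₛₗ[g] P} (H : ∀ m, u (β m) = u' (β m)) :
    u = u' := by sorry

theorem span_range (hβ : IsBCMap f β) : Submodule.span S (Set.range β) = ⊤ := by sorry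

theorem induction_on (hβ : IsBCMap f β) {C : N → Prop} (n : N) (zero : C 0)
    (smul : ∀ (s : S) (m : M), C (s • β m)) (add : ∀ a b, C a → C b → C (a + b)) : C n := by sorry

/-- two base changes of the same module are canonically isomorphic -/
noncomputable def equiv (hβ : IsBCMap f β) {β' : M →ₛₗ[f] N'} (hβ' : IsBCMap f β') :
    N ≃ₗ[S] N' := by sorry

theorem equiv_apply (hβ : IsBCMap f β) {β' : M →ₛₗ[f] N'} (hβ' : IsBCMap f β') (m : M) :
    hβ.equiv hβ' (β m) = β' m := by sorry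

theorem of_equiv (hβ : IsBCMap f β) (e : N ≃ₗ[S] N') (β' : M →ₛₗ[f] N')
    (h : ∀ m, β' m = e (β m)) : IsBCMap f β' := by sorry

theorem of_equiv_left (hβ : IsBCMap f β) (e : M' ≃ₗ[R] M) (β' : M' →ₛₗ[f] N)
    (h : ∀ m, β' m = β (e m)) : IsBCMap f β' := by sorry

theorem comp (hβ : IsBCMap f β) {γ : N →ₛₗ[g] P} (hγ : IsBCMap g γ) {h : R →+* T}
    (hh : ∀ a, h a = g (f a)) (δ : M →ₛₗ[h] P) (hδ : ∀ m, δ m = γ (β m)) : IsBCMap h δ := by sorry

theorem of_comp (hβ : IsBCMap f β) {h : R →+* T} (hh : ∀ a, h a = g (f a)) {δ : M →ₛₗ[h] P}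
    (hδ' : IsBCMap h δ) (γ : N →ₛₗ[g] P) (hδ : ∀ m, δ m = γ (β m)) : IsBCMap g γ := by sorry

theorem of_bijective {f₀ : R →+* R} (hf : ∀ a, f₀ a = a) (β₀ : M →ₛₗ[f₀] M')
    (hb : Function.Bijective β₀) : IsBCMap f₀ β₀ := by sorry

theorem self (β₀ : R →ₛₗ[f] S) (h : ∀ a, β₀ a = f a) : IsBCMap f β₀ := by sorry

theorem prod (hβ : IsBCMap f β) {β' : M' →ₛₗ[f] N'} (hβ' : IsBCMap f β')
    (γ : (M × M') →ₛₗ[f] (N × N')) (hγ : ∀ z, γ z = (β z.1, β' z.2)) : IsBCMap f γ := by sorry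

end A

/-! ## T1-B : file `Triple/BCModMathlib.lean`: comparison with Mathlib's `IsBaseChange` -/

section B

variable {R S : Type u} [CommRing R] [CommRing S]
  {M N : Type u} [AddCommGroup M] [Module R M] [AddCommGroup N] [Module S N]

theorem of_isBaseChange [Algebra R S] [Module R N] [IsScalarTower R S N] {β₀ : M →ₗ[R] N}
    (h₀ : IsBaseChange S β₀) (β : M →ₛₗ[algebraMap R S] N) (h : ∀ m, β m = β₀ m) :
    IsBCMap (algebraMap R S) β := by sorry

theorem isBaseChange [Algebra R S] [Module R N] [IsScalarTower R S N]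
    {β : M →ₛₗ[algebraMap R S] N} (hβ : IsBCMap (algebraMap R S) β) (β₀ : M →ₗ[R] N)
    (h : ∀ m, β₀ m = β m) : IsBaseChange S β₀ := by sorry

variable {f : R →+* S} {β : M →ₛₗ[f] N}

theorem invertible (hβ : IsBCMap f β) (hM : Module.Invertible R M) : Module.Invertible S N := by
  sorry

theorem finite (hβ : IsBCMap f β) (hM : Module.Finite R M) : Module.Finite S N := by sorry

theorem projective (hβ : IsBCMap f β) (hM : Module.Projective R M) : Module.Projective S N := by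
  sorry

/-- Base change along the top of a pushout square of rings is base change along the bottom.
`A --φ--> A'`, `i : A → R`, `i' : A' → S`, `f : R → S`, `S = A' ⊗[A] R` (hypothesis `hpush`). -/
theorem restrict_pushout {A A' : Type u} [CommRing A] [CommRing A'] {φ : A →+* A'}
    {i : A →+* R} {i' : A' →+* S}
    [Module A R] (hR : ∀ (a : A) (r : R), a • r = i a * r)
    [Module A' S] (hS : ∀ (a : A') (s : S), a • s = i' a * s)
    (fA : R →ₛₗ[φ] S) (hfA : ∀ r, fA r = f r) (hpush : IsBCMap φ fA)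
    [Module A M] (hM : ∀ (a : A) (m : M), a • m = i a • m)
    [Module A' N] (hN : ∀ (a : A') (n : N), a • n = i' a • n)
    (hβ : IsBCMap f β) (βA : M →ₛₗ[φ] N) (hβA : ∀ m, βA m = β m) : IsBCMap φ βA := by sorry

end B

end IsBCMap

/-! ## T1-C : file `Triple/QC.lean`: quasi-coherence = base change along `resᵢ` -/

namespace CurveCharts

variable {k : Type u} [Field k] (𝔠 : CurveCharts k)
  (A : Type u) [CommRing A] [Algebra k A]

theorem isLocalization_res₁ :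
    @IsLocalization.Away (𝔠.R₁ A) _ (𝔠.xA A) (𝔠.R₁₂ A) _ (𝔠.res₁ A).toRingHom.toAlgebra := by sorry

theorem isLocalization_res₂ :
    @IsLocalization.Away (𝔠.R₂ A) _ (𝔠.yA A) (𝔠.R₁₂ A) _ (𝔠.res₂ A).toRingHom.toAlgebra := by sorry

end CurveCharts

namespace Triple

variable {k : Type u} [Field k] {𝔠 : CurveCharts k}
  {A A' A'' : Type u} [CommRing A] [Algebra k A] [CommRing A'] [Algebra k A']
  [CommRing A''] [Algebra k A'']

theorem isQC_iff (T : Triple 𝔠 A) :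
    T.IsQC ↔ IsBCMap (𝔠.res₁ A).toRingHom T.ρ₁ ∧ IsBCMap (𝔠.res₂ A).toRingHom T.ρ₂ := by sorry

theorem unit_isQC : (unit 𝔠 A).IsQC := by sorry

theorem unit_isInvertible : (unit 𝔠 A).IsInvertible := by sorry

theorem unit_isRigid : (unit 𝔠 A).IsRigid := by sorry

/-! ## T1-D : file `Triple/IsoLemmas.lean` -/

noncomputable def Iso.refl (T : Triple 𝔠 A) : Iso T T := by sorry
noncomputable def Iso.symm {T T' : Triple 𝔠 A} (e : Iso T T') : Iso T' T := by sorry
noncomputable def Iso.trans {T T' T'' : Triple 𝔠 A} (e : Iso T T') (e' : Iso T' T'') :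
    Iso T T'' := by sorry

theorem IsQC.of_iso {T T' : Triple 𝔠 A} (e : Iso T T') (h : T.IsQC) : T'.IsQC := by sorry
theorem IsInvertible.of_iso {T T' : Triple 𝔠 A} (e : Iso T T') (h : T.IsInvertible) :
    T'.IsInvertible := by sorry
theorem IsRigid.of_iso {T T' : Triple 𝔠 A} (e : Iso T T') (h : T.IsRigid) : T'.IsRigid := by sorry

/-- an isomorphism of triples induces `A`-linear equivalences compatible with `δ` -/
theorem Iso.exists_equiv_δ {T T' : Triple 𝔠 A} (e : Iso T T') :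
    ∃ (e0 : (T.N₁ × T.N₂) ≃ₗ[A] (T'.N₁ × T'.N₂)) (e1 : T.N₁₂ ≃ₗ[A] T'.N₁₂),
      ∀ z, e1 (T.δ z) = T'.δ (e0 z) := by sorry

theorem Iso.h0_eq {K : Type u} [Field K] [Algebra k K] {T T' : Triple 𝔠 K} (e : Iso T T') :
    T.h0 = T'.h0 := by sorry
theorem Iso.h1_eq {K : Type u} [Field K] [Algebra k K] {T T' : Triple 𝔠 K} (e : Iso T T') :
    T.h1 = T'.h1 := by sorry
theorem Iso.chi_eq {K : Type u} [Field K] [Algebra k K] {T T' : Triple 𝔠 K} (e : Iso T T') :
    T.chi = T'.chi := by sorry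

/-! ## T1-E : file `Triple/BCLemmas.lean` (uses A, B, C, D) -/

theorem _root_.Fermat.Agent.S25.CurveCharts.bc₁_comp (𝔠 : CurveCharts k) (φ : A →ₐ[k] A')
    (ψ : A' →ₐ[k] A'') (a : 𝔠.R₁ A) : 𝔠.bc₁ (ψ.comp φ) a = 𝔠.bc₁ ψ (𝔠.bc₁ φ a) := by sorry
theorem _root_.Fermat.Agent.S25.CurveCharts.bc₂_comp (𝔠 : CurveCharts k) (φ : A →ₐ[k] A')
    (ψ : A' →ₐ[k] A'') (a : 𝔠.R₂ A) : 𝔠.bc₂ (ψ.comp φ) a = 𝔠.bc₂ ψ (𝔠.bc₂ φ a) := by sorry
theorem _root_.Fermat.Agent.S25.CurveCharts.bc₁₂_comp (𝔠 : CurveCharts k) (φ : A →ₐ[k] A')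
    (ψ : A' →ₐ[k] A'') (a : 𝔠.R₁₂ A) : 𝔠.bc₁₂ (ψ.comp φ) a = 𝔠.bc₁₂ ψ (𝔠.bc₁₂ φ a) := by sorry
theorem _root_.Fermat.Agent.S25.CurveCharts.ev₀_bc₂ (𝔠 : CurveCharts k) (φ : A →ₐ[k] A')
    (a : 𝔠.R₂ A) : 𝔠.ev₀ A' (𝔠.bc₂ φ a) = φ (𝔠.ev₀ A a) := by sorry

noncomputable def BaseChange.unique {φ : A →ₐ[k] A'} {T : Triple 𝔠 A} {T' T'' : Triple 𝔠 A'}
    (D : BaseChange φ T T') (D' : BaseChange φ T T'') : Iso T' T'' := by sorry

noncomputable def BaseChange.ofIso {φ : A →ₐ[k] A'} {T : Triple 𝔠 A} {T' T'' : Triple 𝔠 A'}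
    (D : BaseChange φ T T') (e : Iso T' T'') : BaseChange φ T T'' := by sorry

noncomputable def BaseChange.ofIsoLeft {φ : A →ₐ[k] A'} {T₀ T : Triple 𝔠 A} {T' : Triple 𝔠 A'}
    (D : BaseChange φ T T') (e : Iso T₀ T) : BaseChange φ T₀ T' := by sorry

noncomputable def BaseChange.comp {φ : A →ₐ[k] A'} {ψ : A' →ₐ[k] A''} {T : Triple 𝔠 A}
    {T' : Triple 𝔠 A'} {T'' : Triple 𝔠 A''} (D : BaseChange φ T T') (D' : BaseChange ψ T' T'') :
    BaseChange (ψ.comp φ) T T'' := by sorry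

noncomputable def BaseChange.id (T : Triple 𝔠 A) : BaseChange (AlgHom.id k A) T T := by sorry

noncomputable def BaseChange.unit (φ : A →ₐ[k] A') :
    BaseChange φ (Triple.unit 𝔠 A) (Triple.unit 𝔠 A') := by sorry

theorem BaseChange.isQC {φ : A →ₐ[k] A'} {T : Triple 𝔠 A} {T' : Triple 𝔠 A'}
    (D : BaseChange φ T T') (h : T.IsQC) : T'.IsQC := by sorry
theorem BaseChange.isInvertible {φ : A →ₐ[k] A'} {T : Triple 𝔠 A} {T' : Triple 𝔠 A'}
    (D : BaseChange φ T T') (h : T.IsInvertible) : T'.IsInvertible := by sorry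
theorem BaseChange.isRigid {φ : A →ₐ[k] A'} {T : Triple 𝔠 A} {T' : Triple 𝔠 A'}
    (D : BaseChange φ T T') (h : T.IsRigid) : T'.IsRigid := by sorry
theorem BaseChange.deg0 {φ : A →ₐ[k] A'} {T : Triple 𝔠 A} {T' : Triple 𝔠 A'}
    (D : BaseChange φ T T') (h : T.Deg0) : T'.Deg0 := by sorry
theorem BaseChange.isPic0 {φ : A →ₐ[k] A'} {T : Triple 𝔠 A} {T' : Triple 𝔠 A'}
    (D : BaseChange φ T T') (h : T.IsPic0) : T'.IsPic0 := by sorry
theorem Deg0.of_iso {T T' : Triple 𝔠 A} (e : Iso T T') (h : T.Deg0) : T'.Deg0 := by sorry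
theorem IsPic0.of_iso {T T' : Triple 𝔠 A} (e : Iso T T') (h : T.IsPic0) : T'.IsPic0 := by sorry

/-! ## T1-F : file `Triple/Delta.lean` (= T3; uses A, B): `δ` commutes with base change -/

/-- `β₁`, `β₂`, `β₁₂` are also base changes along `φ : A → A'` of the underlying `A`-modules. -/
noncomputable def BaseChange.β₁A {φ : A →ₐ[k] A'} {T : Triple 𝔠 A} {T' : Triple 𝔠 A'}
    (D : BaseChange φ T T') : T.N₁ →ₛₗ[φ.toRingHom] T'.N₁ := by sorry
noncomputable def BaseChange.β₂A {φ : A →ₐ[k] A'} {T : Triple 𝔠 A} {T' : Triple 𝔠 A'}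
    (D : BaseChange φ T T') : T.N₂ →ₛₗ[φ.toRingHom] T'.N₂ := by sorry
noncomputable def BaseChange.β₁₂A {φ : A →ₐ[k] A'} {T : Triple 𝔠 A} {T' : Triple 𝔠 A'}
    (D : BaseChange φ T T') : T.N₁₂ →ₛₗ[φ.toRingHom] T'.N₁₂ := by sorry

theorem BaseChange.β₁A_apply {φ : A →ₐ[k] A'} {T : Triple 𝔠 A} {T' : Triple 𝔠 A'}
    (D : BaseChange φ T T') (n : T.N₁) : D.β₁A n = D.β₁ n := by sorry
theorem BaseChange.β₂A_apply {φ : A →ₐ[k] A'} {T : Triple 𝔠 A} {T' : Triple 𝔠 A'}
    (D : BaseChange φ T T') (n : T.N₂) : D.β₂A n = D.β₂ n := by sorry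
theorem BaseChange.β₁₂A_apply {φ : A →ₐ[k] A'} {T : Triple 𝔠 A} {T' : Triple 𝔠 A'}
    (D : BaseChange φ T T') (n : T.N₁₂) : D.β₁₂A n = D.β₁₂ n := by sorry

theorem BaseChange.isBCMap_β₁A {φ : A →ₐ[k] A'} {T : Triple 𝔠 A} {T' : Triple 𝔠 A'}
    (D : BaseChange φ T T') : IsBCMap φ.toRingHom D.β₁A := by sorry
theorem BaseChange.isBCMap_β₂A {φ : A →ₐ[k] A'} {T : Triple 𝔠 A} {T' : Triple 𝔠 A'}
    (D : BaseChange φ T T') : IsBCMap φ.toRingHom D.β₂A := by sorry
theorem BaseChange.isBCMap_β₁₂A {φ : A →ₐ[k] A'} {T : Triple 𝔠 A} {T' : Triple 𝔠 A'}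
    (D : BaseChange φ T T') : IsBCMap φ.toRingHom D.β₁₂A := by sorry

/-- KEY (T3), for an `A`-algebra `A'` whose structure map is `φ`. -/
theorem BaseChange.exists_equiv_δ [Algebra A A'] {φ : A →ₐ[k] A'}
    (hφ : ∀ a, algebraMap A A' a = φ a) {T : Triple 𝔠 A} {T' : Triple 𝔠 A'}
    (D : BaseChange φ T T') :
    ∃ (e0 : A' ⊗[A] (T.N₁ × T.N₂) ≃ₗ[A'] (T'.N₁ × T'.N₂)) (e1 : A' ⊗[A] T.N₁₂ ≃ₗ[A'] T'.N₁₂),
      (∀ z, e1 (T.δ.baseChange A' z) = T'.δ (e0 z)) ∧
      (∀ z, e0 (1 ⊗ₜ z) = (D.β₁ z.1, D.β₂ z.2)) ∧ (∀ n, e1 (1 ⊗ₜ n) = D.β₁₂ n) := by sorry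

theorem BaseChange.bijective_δ_iff [Algebra A A'] {φ : A →ₐ[k] A'}
    (hφ : ∀ a, algebraMap A A' a = φ a) {T : Triple 𝔠 A} {T' : Triple 𝔠 A'}
    (D : BaseChange φ T T') :
    Function.Bijective T'.δ ↔ Function.Bijective (T.δ.baseChange A') := by sorry

end Triple

/-! ## T1-G : file `FiniteModelBC.lean` (import `FiniteModel.lean` only): finite models and base
change, pure linear algebra -/

namespace FiniteModel

variable {A : Type u} [CommRing A] {K0 K1 : Type u} [AddCommGroup K0] [Module A K0]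
  [AddCommGroup K1] [Module A K1] {δ : K0 →ₗ[A] K1}

/-- transport along equivalences -/
noncomputable def ofEquiv (F : FiniteModel δ) {L0 L1 : Type u} [AddCommGroup L0] [Module A L0]
    [AddCommGroup L1] [Module A L1] {δ' : L0 →ₗ[A] L1} (e0 : K0 ≃ₗ[A] L0) (e1 : K1 ≃ₗ[A] L1)
    (h : ∀ z, e1 (δ z) = δ' (e0 z)) : FiniteModel δ' := by sorry

/-- base change of a finite model; `d` becomes `d.baseChange A'` -/
noncomputable def baseChange (F : FiniteModel δ) (A' : Type u) [CommRing A'] [Algebra A A'] :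
    FiniteModel (δ.baseChange A') := by sorry

theorem injective_iff (F : FiniteModel δ) : Function.Injective δ ↔ Function.Injective F.d := by
  sorry
theorem surjective_iff (F : FiniteModel δ) : Function.Surjective δ ↔ Function.Surjective F.d := by
  sorry
theorem bijective_iff (F : FiniteModel δ) : Function.Bijective δ ↔ Function.Bijective F.d := by
  sorry

/-- `ker δ ≃ ker d`, `coker δ ≃ coker d` -/
noncomputable def kerEquiv (F : FiniteModel δ) : LinearMap.ker δ ≃ₗ[A] LinearMap.ker F.d := by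
  sorry
noncomputable def cokerEquiv (F : FiniteModel δ) :
    (K1 ⧸ LinearMap.range δ) ≃ₗ[A] (F.P1 ⧸ LinearMap.range F.d) := by sorry

theorem bijective_baseChange_iff (F : FiniteModel δ) (A' : Type u) [CommRing A'] [Algebra A A'] :
    Function.Bijective (δ.baseChange A') ↔ Function.Bijective (F.d.baseChange A') := by sorry

end FiniteModel

namespace Triple

variable {k : Type u} [Field k] {𝔠 : CurveCharts k}
  {A A' : Type u} [CommRing A] [Algebra k A] [CommRing A'] [Algebra k A']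

/-- (in `Triple/Delta.lean`, after T1-G) -/
noncomputable def BaseChange.finiteModel {φ : A →ₐ[k] A'} {T : Triple 𝔠 A} {T' : Triple 𝔠 A'}
    (D : BaseChange φ T T') (F : FiniteModel T.δ) : FiniteModel T'.δ := by sorry

end Triple

end Fermat.Agent.S25
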